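import Fermat.Agent.S17.E.Positivity

/-! # S17 / T2 : the height on the Mordell-Weil group -/

set_option autoImplicit false

namespace Fermat.Agent.S17

variable (N : ℕ) [NeZero N]

theorem height_exists : ∃ (h : MW N → ℝ) (C : ℝ), (∀ x, 0 ≤ h x) ∧
    (∀ x y, |h (x + y) + h (x - y) - 2 * (h x + h y)| ≤ C) ∧ ∀ B, {x | h x ≤ B}.Finite := by
  obtain ⟨C₁, h₁⟩ := qh_bounded_below (N := N)
  obtain ⟨C₂, h₂⟩ := qh_parallelogram (N := N)
  refine ⟨fun x => qh x + C₁, C₂ + 2 * |C₁|, fun x => by have := h₁ x; linarith, fun x y => ?_, fun B => ?_⟩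
  · have := h₂ x y
    have e : qh (x + y) + C₁ + (qh (x - y) + C₁) - 2 * (qh x + C₁ + (qh y + C₁)) =
        (qh (x + y) + qh (x - y) - 2 * (qh x + qh y)) + (-(2 * C₁)) := by ring
    rw [e]
    refine (abs_add_le _ _).trans ?_
    rw [abs_neg, abs_mul]
    have : |(2 : ℝ)| = 2 := by norm_num
    rw [this]
    linarith
  · refine (qh_northcott (N := N) (B - C₁)).subset ?_
    intro x hx
    simp only [Set.mem_ofPred_eq] at hx ⊢
    linarith

end Fermat.Agent.S17
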