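import Fermat.Statements.S17
import Fermat.Agent.S17.Height
import Fermat.Agent.S17.T1.Inputs
import Fermat.Agent.S17.H.WeakMW

set_option autoImplicit false
open ModularCurve AlgebraicCurve
open ModularCurve ModularCurve.JZero

namespace Fermat.Agent.S17

theorem main (N : ℕ) [NeZero N] (hN : N.Prime) (hN5 : 5 ≤ N) :
    AddGroup.FG ↥(FixedPoints.addSubgroup ((AlgebraicClosure ℚ) ≃ₐ[ℚ] (AlgebraicClosure ℚ)) (JZero N)) := by
  obtain ⟨h, C, h0, hpar, hN⟩ := height_exists N
  obtain ⟨S, hS⟩ := class_unramified N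
  have hw := weakMW (J := JZero N) (two_torsion_finite N) (fun x _ => two_divisible N x)
    (class_smooth N) S hS
  haveI : Northcott h := ⟨hN⟩
  exact AddCommGroup.fg_of_descent' hw h0 hpar

end Fermat.Agent.S17
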